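/-
S13 package T, leaf T3 (helper14): every short Weierstrass equation over `ℂ` with nonzero
discriminant comes from a lattice.

* `G_eq_tsum_prod`   : `L.G k` as a sum over `ℤ × ℤ`;
* `pairOfTau τ`      : the period pair `(τ, 1)`; `smulPair c hc L` : the scaled pair `(c ω₁, c ω₂)`;
* `G_smulPair`       : `G_k (c L) = c ^ (-k) G_k L`;
* `G_pairOfTau`      : `G_k (ℤ τ + ℤ) = 2 ζ(k) E_k(τ)` (Mathlib's normalised Eisenstein series);
* `g₂_pairOfTau`, `g₃_pairOfTau`, `disc_pairOfTau`, `j_pairOfTau`;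
* `exists_periodPair_g`, `exists_periodPair` : the existence statements.
-/
import Mathlib
import Fermat.Agent.S24.H17_JLocal

set_option autoImplicit false

namespace Fermat.Agent.S13.T3

open UpperHalfPlane ModularForm EisensteinSeries Complex
open scoped Real MatrixGroups Nat

open Fermat.Agent.S23 Fermat.Agent.S24

/-- The lattice sum `G_k` as a sum over `ℤ × ℤ`. -/
theorem G_eq_tsum_prod (L : PeriodPair) (k : ℕ) :
    L.G k = ∑' x : ℤ × ℤ, (((x.1 : ℂ) * L.ω₁ + (x.2 : ℂ) * L.ω₂) ^ k)⁻¹ := by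
  rw [PeriodPair.G, ← L.latticeEquivProd.symm.toEquiv.tsum_eq]
  refine tsum_congr fun x => ?_
  simp only [LinearEquiv.coe_toEquiv]
  rw [PeriodPair.latticeEquiv_symm_apply]

/-- The period pair `(τ, 1)` of a point of the upper half plane. -/
noncomputable def pairOfTau (τ : ℍ) : PeriodPair where
  ω₁ := τ
  ω₂ := 1
  indep := by
    rw [LinearIndependent.pair_iff]
    intro s t h
    have him := congrArg Complex.im h
    simp only [Complex.real_smul, Complex.add_im, Complex.mul_im, Complex.ofReal_re,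
      Complex.ofReal_im, zero_mul, add_zero, Complex.one_im, mul_zero, Complex.zero_im,
      UpperHalfPlane.coe_im] at him
    have hs : s = 0 := by
      rcases mul_eq_zero.mp him with h1 | h1
      · exact h1
      · exact absurd h1 τ.im_pos.ne'
    subst hs
    have hre := congrArg Complex.re h
    simp at hre
    exact ⟨rfl, hre⟩

@[simp] theorem pairOfTau_ω₁ (τ : ℍ) : (pairOfTau τ).ω₁ = τ := rfl
@[simp] theorem pairOfTau_ω₂ (τ : ℍ) : (pairOfTau τ).ω₂ = 1 := rfl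

/-- Scaling a period pair by a nonzero complex number. -/
noncomputable def smulPair (c : ℂ) (hc : c ≠ 0) (L : PeriodPair) : PeriodPair where
  ω₁ := c * L.ω₁
  ω₂ := c * L.ω₂
  indep := by
    have h := L.indep
    rw [LinearIndependent.pair_iff] at h ⊢
    intro s t hst
    apply h s t
    have : c * (s • L.ω₁ + t • L.ω₂) = 0 := by
      rw [← hst]
      simp only [Complex.real_smul]
      ring
    exact (mul_eq_zero.mp this).resolve_left hc

@[simp] theorem smulPair_ω₁ (c : ℂ) (hc : c ≠ 0) (L : PeriodPair) :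
    (smulPair c hc L).ω₁ = c * L.ω₁ := rfl
@[simp] theorem smulPair_ω₂ (c : ℂ) (hc : c ≠ 0) (L : PeriodPair) :
    (smulPair c hc L).ω₂ = c * L.ω₂ := rfl

/-- Homogeneity of the lattice sums: `G_k(c L) = c^(-k) G_k(L)`. -/
theorem G_smulPair (c : ℂ) (hc : c ≠ 0) (L : PeriodPair) (k : ℕ) :
    (smulPair c hc L).G k = (c ^ k)⁻¹ * L.G k := by
  rw [G_eq_tsum_prod, G_eq_tsum_prod, ← tsum_mul_left]
  refine tsum_congr fun x => ?_
  rw [smulPair_ω₁, smulPair_ω₂, ← mul_inv, ← mul_pow]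
  congr 2
  ring

/-- The lattice sum of `ℤ τ + ℤ` is the (non-normalised) Eisenstein series. -/
theorem G_pairOfTau_eq_tsum (τ : ℍ) (k : ℕ) :
    (pairOfTau τ).G k = ∑' v : Fin 2 → ℤ, eisSummand k v τ := by
  rw [G_eq_tsum_prod, ← (finTwoArrowEquiv ℤ).tsum_eq]
  refine tsum_congr fun v => ?_
  have h1 : ((finTwoArrowEquiv ℤ) v).1 = v 0 := rfl
  have h2 : ((finTwoArrowEquiv ℤ) v).2 = v 1 := rfl
  rw [h1, h2, pairOfTau_ω₁, pairOfTau_ω₂, mul_one, eisSummand, zpow_neg, zpow_natCast]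

theorem G_pairOfTau (τ : ℍ) {k : ℕ} (hk : 3 ≤ k) :
    (pairOfTau τ).G k = 2 * riemannZeta k * E hk τ := by
  rw [G_pairOfTau_eq_tsum, tsum_eisSummand_eq_riemannZeta_mul_eisensteinSeries hk]
  have hE : E hk τ = (1 / 2 : ℂ) • eisensteinSeriesSIF (N := 1) 0 k τ := rfl
  rw [hE, eisensteinSeriesSIF_apply]
  simp only [smul_eq_mul]
  ring

theorem bernoulli'_five : bernoulli' 5 = 0 :=
  bernoulli'_eq_zero_of_odd (by decide) (by norm_num)

theorem bernoulli'_six : bernoulli' 6 = 1 / 42 := by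
  have h2 : Nat.choose 6 2 = 15 := by decide
  have h3 : Nat.choose 6 3 = 20 := by decide
  have h4 : Nat.choose 6 4 = 15 := by decide
  rw [bernoulli'_def]
  norm_num [Finset.sum_range_succ, Finset.sum_range_zero, h2, h3, h4, bernoulli'_five]

theorem bernoulli_six : bernoulli 6 = 1 / 42 := by
  rw [bernoulli, bernoulli'_six]; norm_num

theorem riemannZeta_six : riemannZeta 6 = (π : ℂ) ^ 6 / 945 := by
  have h := riemannZeta_two_mul_nat (k := 3) (by norm_num)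
  have h6 : ((2 : ℂ) * ((3 : ℕ) : ℂ)) = 6 := by norm_num
  rw [h6] at h
  rw [h, show 2 * 3 = 6 from rfl, bernoulli_six]
  have hf : ((6 ! : ℕ) : ℂ) = 720 := by
    norm_num [Nat.factorial]
  rw [hf]
  push_cast
  ring

theorem g₂_pairOfTau (τ : ℍ) : (pairOfTau τ).g₂ = 4 * (π : ℂ) ^ 4 / 3 * E₄ τ := by
  rw [PeriodPair.g₂, G_pairOfTau τ (by norm_num : 3 ≤ 4)]
  have h4 : riemannZeta ((4 : ℕ) : ℂ) = (π : ℂ) ^ 4 / 90 := by
    have := riemannZeta_four
    simpa using this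
  rw [h4]
  ring

theorem g₃_pairOfTau (τ : ℍ) : (pairOfTau τ).g₃ = 8 * (π : ℂ) ^ 6 / 27 * E₆ τ := by
  rw [PeriodPair.g₃, G_pairOfTau τ (by norm_num : 3 ≤ 6)]
  have h6 : riemannZeta ((6 : ℕ) : ℂ) = (π : ℂ) ^ 6 / 945 := by
    have := riemannZeta_six
    simpa using this
  rw [h6]
  ring

theorem g₂_smulPair (c : ℂ) (hc : c ≠ 0) (L : PeriodPair) :
    (smulPair c hc L).g₂ = (c ^ 4)⁻¹ * L.g₂ := by
  rw [PeriodPair.g₂, PeriodPair.g₂, G_smulPair]; ring

theorem g₃_smulPair (c : ℂ) (hc : c ≠ 0) (L : PeriodPair) :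
    (smulPair c hc L).g₃ = (c ^ 6)⁻¹ * L.g₃ := by
  rw [PeriodPair.g₃, PeriodPair.g₃, G_smulPair]; ring

theorem pi_ne_zero' : (π : ℂ) ≠ 0 := by exact_mod_cast Real.pi_ne_zero

/-- The discriminant of the lattice `ℤ τ + ℤ`. -/
theorem disc_pairOfTau (τ : ℍ) :
    (pairOfTau τ).g₂ ^ 3 - 27 * (pairOfTau τ).g₃ ^ 2 =
      (2 * (π : ℂ)) ^ 12 * ModularForm.discriminant τ := by
  rw [g₂_pairOfTau, g₃_pairOfTau, discriminant_eq_E₄_cube_sub_E₆_sq]
  ring

theorem disc_pairOfTau_ne_zero (τ : ℍ) :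
    (pairOfTau τ).g₂ ^ 3 - 27 * (pairOfTau τ).g₃ ^ 2 ≠ 0 := by
  rw [disc_pairOfTau]
  exact mul_ne_zero (pow_ne_zero _ (mul_ne_zero two_ne_zero pi_ne_zero'))
    (discriminant_ne_zero τ)

/-- The `j`-invariant of the lattice `ℤ τ + ℤ`. -/
theorem j_pairOfTau (τ : ℍ) :
    1728 * (pairOfTau τ).g₂ ^ 3 =
      R4.jInv τ * ((pairOfTau τ).g₂ ^ 3 - 27 * (pairOfTau τ).g₃ ^ 2) := by
  rw [disc_pairOfTau, g₂_pairOfTau]
  have h := R1.jInv_mul_discriminant τ
  have h' : R4.jInv τ * ModularForm.discriminant τ = E₄ τ ^ 3 := h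
  calc 1728 * (4 * (π : ℂ) ^ 4 / 3 * E₄ τ) ^ 3
      = (2 * (π : ℂ)) ^ 12 * (E₄ τ ^ 3) := by ring
    _ = (2 * (π : ℂ)) ^ 12 * (R4.jInv τ * ModularForm.discriminant τ) := by rw [h']
    _ = R4.jInv τ * ((2 * (π : ℂ)) ^ 12 * ModularForm.discriminant τ) := by ring

/-- **T3, `g`-form**: every pair `(g₂, g₃)` with nonzero discriminant comes from a lattice. -/
theorem exists_periodPair_g (g2 g3 : ℂ) (h : g2 ^ 3 - 27 * g3 ^ 2 ≠ 0) :
    ∃ L : PeriodPair, L.g₂ = g2 ∧ L.g₃ = g3 := by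
  obtain ⟨τ, hτ⟩ := G1.jInv_surjective (1728 * g2 ^ 3 / (g2 ^ 3 - 27 * g3 ^ 2))
  set G2 := (pairOfTau τ).g₂ with hG2
  set G3 := (pairOfTau τ).g₃ with hG3
  have hD : G2 ^ 3 - 27 * G3 ^ 2 ≠ 0 := disc_pairOfTau_ne_zero τ
  have hj : 1728 * G2 ^ 3 = R4.jInv τ * (G2 ^ 3 - 27 * G3 ^ 2) := j_pairOfTau τ
  -- the key relation
  have hR : G2 ^ 3 * g3 ^ 2 = G3 ^ 2 * g2 ^ 3 := by
    rw [hτ] at hj
    have h1 : 1728 * G2 ^ 3 * (g2 ^ 3 - 27 * g3 ^ 2) =
        1728 * g2 ^ 3 * (G2 ^ 3 - 27 * G3 ^ 2) := by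
      rw [hj]; field_simp
    have h2 : (1728 * 27 : ℂ) * (G2 ^ 3 * g3 ^ 2) = (1728 * 27 : ℂ) * (G3 ^ 2 * g2 ^ 3) := by
      linear_combination -h1
    exact mul_left_cancel₀ (by norm_num) h2
  by_cases h2 : g2 = 0
  · -- `g2 = 0`
    have hg3 : g3 ≠ 0 := by
      rintro rfl
      apply h
      rw [h2]; ring
    have hG2z : G2 = 0 := by
      have : G2 ^ 3 * g3 ^ 2 = 0 := by rw [hR, h2]; ring
      rcases mul_eq_zero.mp this with h' | h'
      · exact pow_eq_zero_iff (by norm_num) |>.mp h'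
      · exact absurd (pow_eq_zero_iff (by norm_num) |>.mp h') hg3
    have hG3n : G3 ≠ 0 := by
      intro h'
      apply hD
      rw [hG2z, h']; ring
    obtain ⟨c, hc⟩ := IsAlgClosed.exists_pow_nat_eq (G3 / g3) (n := 6) (by norm_num)
    have hc0 : c ≠ 0 := by
      rintro rfl
      rw [zero_pow (by norm_num)] at hc
      exact div_ne_zero hG3n hg3 hc.symm
    refine ⟨smulPair c hc0 (pairOfTau τ), ?_, ?_⟩
    · rw [g₂_smulPair, ← hG2, hG2z, h2, mul_zero]
    · rw [g₃_smulPair, ← hG3, hc]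
      field_simp
  by_cases h3 : g3 = 0
  · -- `g3 = 0`, `g2 ≠ 0`
    have hG3z : G3 = 0 := by
      have : G3 ^ 2 * g2 ^ 3 = 0 := by rw [← hR, h3]; ring
      rcases mul_eq_zero.mp this with h' | h'
      · exact pow_eq_zero_iff (by norm_num) |>.mp h'
      · exact absurd (pow_eq_zero_iff (by norm_num) |>.mp h') h2
    have hG2n : G2 ≠ 0 := by
      intro h'
      apply hD
      rw [hG3z, h']; ring
    obtain ⟨c, hc⟩ := IsAlgClosed.exists_pow_nat_eq (G2 / g2) (n := 4) (by norm_num)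
    have hc0 : c ≠ 0 := by
      rintro rfl
      rw [zero_pow (by norm_num)] at hc
      exact div_ne_zero hG2n h2 hc.symm
    refine ⟨smulPair c hc0 (pairOfTau τ), ?_, ?_⟩
    · rw [g₂_smulPair, ← hG2, hc]
      field_simp
    · rw [g₃_smulPair, ← hG3, hG3z, h3, mul_zero]
  · -- generic case
    have hG2n : G2 ≠ 0 := by
      intro h'
      have h4 : G3 ^ 2 * g2 ^ 3 = 0 := by rw [← hR, h']; ring
      have h5 : G3 = 0 := by
        rcases mul_eq_zero.mp h4 with h'' | h''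
        · exact pow_eq_zero_iff (by norm_num) |>.mp h''
        · exact absurd (pow_eq_zero_iff (by norm_num) |>.mp h'') h2
      apply hD
      rw [h', h5]; ring
    have hG3n : G3 ≠ 0 := by
      intro h'
      have h4 : G2 ^ 3 * g3 ^ 2 = 0 := by rw [hR, h']; ring
      rcases mul_eq_zero.mp h4 with h'' | h''
      · exact hG2n (pow_eq_zero_iff (by norm_num) |>.mp h'')
      · exact h3 (pow_eq_zero_iff (by norm_num) |>.mp h'')
    -- `c ^ 2 = (G3 * g2) / (g3 * G2)`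
    obtain ⟨c, hc⟩ := IsAlgClosed.exists_pow_nat_eq ((G3 * g2) / (g3 * G2)) (n := 2)
      (by norm_num)
    have hc0 : c ≠ 0 := by
      rintro rfl
      rw [zero_pow (by norm_num)] at hc
      exact div_ne_zero (mul_ne_zero hG3n h2) (mul_ne_zero h3 hG2n) hc.symm
    have hc4 : c ^ 4 = G2 / g2 := by
      have : c ^ 4 = (c ^ 2) ^ 2 := by ring
      rw [this, hc]
      field_simp
      linear_combination -hR
    have hc6 : c ^ 6 = G3 / g3 := by
      have : c ^ 6 = c ^ 4 * c ^ 2 := by ring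
      rw [this, hc4, hc]
      field_simp
    refine ⟨smulPair c hc0 (pairOfTau τ), ?_, ?_⟩
    · rw [g₂_smulPair, ← hG2, hc4]
      field_simp
    · rw [g₃_smulPair, ← hG3, hc6]
      field_simp

/-- **T3**: every short Weierstrass equation `y² = x³ + A x + B` over `ℂ` with nonzero
discriminant is the curve `y² = x³ - (g₂/4) x - g₃/4` of a lattice (with `y = ℘'/2`). -/
theorem exists_periodPair (A B : ℂ) (h : 4 * A ^ 3 + 27 * B ^ 2 ≠ 0) :
    ∃ L : PeriodPair, -L.g₂ / 4 = A ∧ -L.g₃ / 4 = B := by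
  obtain ⟨L, h2, h3⟩ := exists_periodPair_g (-4 * A) (-4 * B) (by
    intro h'
    apply h
    have : (-16 : ℂ) * (4 * A ^ 3 + 27 * B ^ 2) = 0 := by rw [← h']; ring
    exact (mul_eq_zero.mp this).resolve_left (by norm_num))
  exact ⟨L, by rw [h2]; ring, by rw [h3]; ring⟩

end Fermat.Agent.S13.T3
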