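import Mathlib
import Fermat.Agent.S24.H17_JLocal

/-!
# S13, package T, leaf T3 (helper6): every short Weierstrass curve over `ℂ` comes from a lattice

For `A B : ℂ` with `4 A ^ 3 + 27 B ^ 2 ≠ 0` there is a `PeriodPair` `L` with `-g₂(L) / 4 = A` and
`-g₃(L) / 4 = B`, i.e. the curve `y ^ 2 = x ^ 3 + A x + B` is uniformised by `(℘, ℘' / 2)`.

Ingredients: the lattice sums of `(τ, 1)` are the Eisenstein series (`G_k = 2 ζ(k) E_k`), the values
`ζ(4) = π ^ 4 / 90`, `ζ(6) = π ^ 6 / 945`, the identity `1728 Δ = E₄ ^ 3 - E₆ ^ 2`, the surjectivity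
of `j` on the upper half plane, and the homogeneity of `g₂`, `g₃`.
-/

set_option autoImplicit false

open UpperHalfPlane Complex ModularForm EisensteinSeries Finset
open scoped Real Nat

namespace Fermat.Agent.S13.T

/-! ### `ζ(6)` -/

theorem h6_bernoulli'_five : bernoulli' 5 = 0 := by
  have h1 : Nat.choose 5 2 = 10 := by decide
  have h2 : Nat.choose 5 3 = 10 := by decide
  have h3 : Nat.choose 5 4 = 5 := by decide
  rw [bernoulli'_def]
  norm_num [sum_range_succ, sum_range_zero, h1, h2, h3]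

theorem h6_bernoulli'_six : bernoulli' 6 = 1 / 42 := by
  have h1 : Nat.choose 6 2 = 15 := by decide
  have h2 : Nat.choose 6 3 = 20 := by decide
  have h3 : Nat.choose 6 4 = 15 := by decide
  have h4 : Nat.choose 6 5 = 6 := by decide
  rw [bernoulli'_def]
  norm_num [sum_range_succ, sum_range_zero, h1, h2, h3, h4, h6_bernoulli'_five]

theorem h6_riemannZeta_six : riemannZeta 6 = (π : ℂ) ^ 6 / 945 := by
  have h := riemannZeta_two_mul_nat (k := 3) (by norm_num)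
  have hb : bernoulli 6 = 1 / 42 := by
    rw [bernoulli_eq_bernoulli'_of_ne_one (by norm_num), h6_bernoulli'_six]
  have h6 : (2 * ((3 : ℕ) : ℂ)) = 6 := by norm_num
  rw [h6] at h
  rw [h]
  have hf : ((2 * 3 : ℕ)! : ℂ) = 720 := by
    norm_num [Nat.factorial]
  rw [show (2 * 3 : ℕ) = 6 from rfl] at *
  rw [hb]
  simp only [Nat.factorial] at hf ⊢
  push_cast
  norm_num
  ring

/-! ### The lattice `ℤ τ + ℤ` -/

/-- The period pair `(τ, 1)` attached to a point of the upper half plane. -/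
noncomputable def latTau (τ : ℍ) : PeriodPair where
  ω₁ := τ
  ω₂ := 1
  indep := by
    rw [LinearIndependent.pair_iff]
    intro s t h
    have him := congrArg Complex.im h
    have hre := congrArg Complex.re h
    simp at him hre
    have hs : s = 0 := by
      rcases him with h1 | h1
      · exact h1
      · exact absurd h1 τ.im_pos.ne'
    subst hs
    simp at hre
    exact ⟨rfl, hre⟩

@[simp] lemma latTau_ω₁ (τ : ℍ) : (latTau τ).ω₁ = τ := rfl
@[simp] lemma latTau_ω₂ (τ : ℍ) : (latTau τ).ω₂ = 1 := rfl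

/-- The lattice sum of `(τ, 1)` is the (non-normalised) Eisenstein series. -/
theorem G_latTau_eq_tsum (τ : ℍ) (k : ℕ) :
    (latTau τ).G k = ∑' v : Fin 2 → ℤ, eisSummand k v τ := by
  rw [PeriodPair.G]
  rw [← (latTau τ).latticeEquivProd.symm.toEquiv.tsum_eq]
  rw [← (LinearEquiv.finTwoArrow ℤ ℤ).toEquiv.tsum_eq]
  refine tsum_congr fun v => ?_
  simp only [LinearEquiv.coe_toEquiv, eisSummand]
  rw [PeriodPair.latticeEquiv_symm_apply]
  simp [zpow_neg]

/-- `G_k (ℤ τ + ℤ) = 2 ζ(k) E_k(τ)`. -/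
theorem G_latTau (τ : ℍ) {k : ℕ} (hk : 3 ≤ k) :
    (latTau τ).G k = 2 * riemannZeta k * E hk τ := by
  rw [G_latTau_eq_tsum, tsum_eisSummand_eq_riemannZeta_mul_eisensteinSeries hk]
  have : E hk τ = (1 / 2 : ℂ) • eisensteinSeriesSIF (N := 1) 0 k τ := rfl
  rw [this, eisensteinSeriesSIF_apply]
  simp only [smul_eq_mul]
  ring

/-- `g₂ (ℤ τ + ℤ) = (4 π ^ 4 / 3) E₄(τ)`. -/
theorem g₂_latTau (τ : ℍ) : (latTau τ).g₂ = 4 * (π : ℂ) ^ 4 / 3 * E₄ τ := by
  rw [PeriodPair.g₂, G_latTau τ (by norm_num : 3 ≤ 4)]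
  have h4 : riemannZeta ((4 : ℕ) : ℂ) = (π : ℂ) ^ 4 / 90 := by
    have := riemannZeta_four
    simpa using this
  rw [h4]
  ring

/-- `g₃ (ℤ τ + ℤ) = (8 π ^ 6 / 27) E₆(τ)`. -/
theorem g₃_latTau (τ : ℍ) : (latTau τ).g₃ = 8 * (π : ℂ) ^ 6 / 27 * E₆ τ := by
  rw [PeriodPair.g₃, G_latTau τ (by norm_num : 3 ≤ 6)]
  have h6 : riemannZeta ((6 : ℕ) : ℂ) = (π : ℂ) ^ 6 / 945 := by
    have := h6_riemannZeta_six
    simpa using this
  rw [h6]
  ring

/-- The discriminant of the lattice `ℤ τ + ℤ` is `(2 π) ^ 12 Δ(τ)`. -/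
theorem disc_latTau (τ : ℍ) :
    (latTau τ).g₂ ^ 3 - 27 * (latTau τ).g₃ ^ 2 =
      (2 * (π : ℂ)) ^ 12 * ModularForm.discriminant τ := by
  rw [g₂_latTau, g₃_latTau, ModularForm.discriminant_eq_E₄_cube_sub_E₆_sq]
  ring

theorem disc_latTau_ne_zero (τ : ℍ) :
    (latTau τ).g₂ ^ 3 - 27 * (latTau τ).g₃ ^ 2 ≠ 0 := by
  rw [disc_latTau]
  have hπ : (π : ℂ) ≠ 0 := by exact_mod_cast Real.pi_ne_zero
  exact mul_ne_zero (pow_ne_zero _ (mul_ne_zero two_ne_zero hπ)) (discriminant_ne_zero τ)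

/-- The `j`-invariant of the lattice `ℤ τ + ℤ` is `j(τ)`. -/
theorem jInv_eq_latTau (τ : ℍ) :
    Fermat.Agent.S23.R4.jInv τ * ((latTau τ).g₂ ^ 3 - 27 * (latTau τ).g₃ ^ 2) =
      1728 * (latTau τ).g₂ ^ 3 := by
  have hΔ := discriminant_ne_zero τ
  rw [disc_latTau, g₂_latTau, Fermat.Agent.S23.R4.jInv_def]
  field_simp
  ring

/-! ### Scaling a lattice -/

/-- The period pair `(c ω₁, c ω₂)`. -/
noncomputable def scale (c : ℂ) (hc : c ≠ 0) (L : PeriodPair) : PeriodPair where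
  ω₁ := c * L.ω₁
  ω₂ := c * L.ω₂
  indep := by
    have h := L.indep
    rw [LinearIndependent.pair_iff] at h ⊢
    intro s t hst
    apply h s t
    have : c * (s • L.ω₁ + t • L.ω₂) = 0 := by
      rw [← hst]
      simp only [Complex.real_smul]
      ring
    exact (mul_eq_zero.mp this).resolve_left hc

@[simp] lemma scale_ω₁ (c : ℂ) (hc : c ≠ 0) (L : PeriodPair) : (scale c hc L).ω₁ = c * L.ω₁ := rfl
@[simp] lemma scale_ω₂ (c : ℂ) (hc : c ≠ 0) (L : PeriodPair) : (scale c hc L).ω₂ = c * L.ω₂ := rfl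

lemma mem_lattice_scale (c : ℂ) (hc : c ≠ 0) (L : PeriodPair) (x : ℂ) :
    x ∈ (scale c hc L).lattice ↔ ∃ l ∈ L.lattice, x = c * l := by
  rw [PeriodPair.mem_lattice]
  constructor
  · rintro ⟨m, n, rfl⟩
    refine ⟨m * L.ω₁ + n * L.ω₂, PeriodPair.mem_lattice.mpr ⟨m, n, rfl⟩, ?_⟩
    simp only [scale_ω₁, scale_ω₂]
    ring
  · rintro ⟨l, hl, rfl⟩
    obtain ⟨m, n, rfl⟩ := PeriodPair.mem_lattice.mp hl
    refine ⟨m, n, ?_⟩
    simp only [scale_ω₁, scale_ω₂]
    ring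

/-- Homogeneity of the lattice sums: `G_n (c L) = c ^ (-n) G_n (L)`. -/
theorem G_scale (c : ℂ) (hc : c ≠ 0) (L : PeriodPair) (n : ℕ) :
    (scale c hc L).G n = (c ^ n)⁻¹ * L.G n := by
  rw [PeriodPair.G, PeriodPair.G]
  rw [← (scale c hc L).latticeEquivProd.symm.toEquiv.tsum_eq,
    ← L.latticeEquivProd.symm.toEquiv.tsum_eq, ← tsum_mul_left]
  refine tsum_congr fun x => ?_
  simp only [LinearEquiv.coe_toEquiv]
  rw [PeriodPair.latticeEquiv_symm_apply, PeriodPair.latticeEquiv_symm_apply]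
  simp only [scale_ω₁, scale_ω₂]
  rw [← mul_inv, ← mul_pow]
  congr 2
  ring

theorem g₂_scale (c : ℂ) (hc : c ≠ 0) (L : PeriodPair) :
    (scale c hc L).g₂ = (c ^ 4)⁻¹ * L.g₂ := by
  rw [PeriodPair.g₂, PeriodPair.g₂, G_scale]
  ring

theorem g₃_scale (c : ℂ) (hc : c ≠ 0) (L : PeriodPair) :
    (scale c hc L).g₃ = (c ^ 6)⁻¹ * L.g₃ := by
  rw [PeriodPair.g₃, PeriodPair.g₃, G_scale]
  ring

/-! ### Every pair of invariants comes from a lattice -/

/-- Algebraic core: two pairs of invariants with nonzero discriminant and the same `j` differ by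
a scaling `(u ^ 2, u ^ 3)`. -/
theorem exists_scaling {a b a' b' : ℂ} (hd : a ^ 3 - 27 * b ^ 2 ≠ 0)
    (hd' : a' ^ 3 - 27 * b' ^ 2 ≠ 0)
    (hj : a ^ 3 * (a' ^ 3 - 27 * b' ^ 2) = a' ^ 3 * (a ^ 3 - 27 * b ^ 2)) :
    ∃ u : ℂ, u ≠ 0 ∧ u ^ 2 * a = a' ∧ u ^ 3 * b = b' := by
  have hstar : a ^ 3 * b' ^ 2 = a' ^ 3 * b ^ 2 := by linear_combination (-1 / 27 : ℂ) * hj
  by_cases ha : a = 0
  · -- `j = 0`
    subst ha
    have hb : b ≠ 0 := by
      intro hb
      apply hd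
      rw [hb]
      ring
    have ha' : a' = 0 := by
      have h1 : a' ^ 3 * b ^ 2 = 0 := by rw [← hstar]; ring
      rcases mul_eq_zero.mp h1 with h2 | h2
      · exact pow_eq_zero_iff (by norm_num) |>.mp h2
      · exact absurd (pow_eq_zero_iff (by norm_num) |>.mp h2) hb
    subst ha'
    have hb' : b' ≠ 0 := by
      intro hb'
      apply hd'
      rw [hb']
      ring
    obtain ⟨u, hu⟩ := IsAlgClosed.exists_pow_nat_eq (b' / b) (n := 3) (by norm_num)
    have hu0 : u ≠ 0 := by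
      intro h0
      rw [h0] at hu
      have : b' / b = 0 := by rw [← hu]; ring
      exact div_ne_zero hb' hb this
    refine ⟨u, hu0, by ring, ?_⟩
    rw [hu]
    field_simp
  · by_cases hb : b = 0
    · -- `j = 1728`
      subst hb
      have hb' : b' = 0 := by
        have h1 : a ^ 3 * b' ^ 2 = 0 := by rw [hstar]; ring
        rcases mul_eq_zero.mp h1 with h2 | h2
        · exact absurd (pow_eq_zero_iff (by norm_num) |>.mp h2) ha
        · exact pow_eq_zero_iff (by norm_num) |>.mp h2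
      subst hb'
      have ha' : a' ≠ 0 := by
        intro ha'
        apply hd'
        rw [ha']
        ring
      obtain ⟨u, hu⟩ := IsAlgClosed.exists_pow_nat_eq (a' / a) (n := 2) (by norm_num)
      have hu0 : u ≠ 0 := by
        intro h0
        rw [h0] at hu
        have : a' / a = 0 := by rw [← hu]; ring
        exact div_ne_zero ha' ha this
      refine ⟨u, hu0, ?_, by ring⟩
      rw [hu]
      field_simp
    · -- general case
      have ha' : a' ≠ 0 := by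
        intro ha'
        have h1 : a ^ 3 * b' ^ 2 = 0 := by rw [hstar, ha']; ring
        rcases mul_eq_zero.mp h1 with h2 | h2
        · exact ha (pow_eq_zero_iff (by norm_num) |>.mp h2)
        · apply hd'
          rw [ha', pow_eq_zero_iff (by norm_num) |>.mp h2]
          ring
      obtain ⟨u, hu⟩ := IsAlgClosed.exists_pow_nat_eq (a' / a) (n := 2) (by norm_num)
      have hu0 : u ≠ 0 := by
        intro h0
        rw [h0] at hu
        have : a' / a = 0 := by rw [← hu]; ring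
        exact div_ne_zero ha' ha this
      have hua : u ^ 2 * a = a' := by
        rw [hu]
        field_simp
      have hsq : (u ^ 3 * b) ^ 2 = b' ^ 2 := by
        have h1 : (u ^ 3 * b) ^ 2 * a ^ 3 = b' ^ 2 * a ^ 3 := by
          have : (u ^ 3 * b) ^ 2 * a ^ 3 = (u ^ 2 * a) ^ 3 * b ^ 2 := by ring
          rw [this, hua, ← hstar]
          ring
        exact mul_right_cancel₀ (pow_ne_zero 3 ha) h1
      rcases sq_eq_sq_iff_eq_or_eq_neg.mp hsq with h1 | h1
      · exact ⟨u, hu0, hua, h1⟩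
      · refine ⟨-u, neg_ne_zero.mpr hu0, ?_, ?_⟩
        · rw [neg_sq]
          exact hua
        · have : (-u) ^ 3 * b = -(u ^ 3 * b) := by ring
          rw [this, h1, neg_neg]

/-- Every pair `(g₂, g₃)` with `g₂ ^ 3 - 27 g₃ ^ 2 ≠ 0` is the pair of invariants of a lattice. -/
theorem exists_periodPair_g (a' b' : ℂ) (hd' : a' ^ 3 - 27 * b' ^ 2 ≠ 0) :
    ∃ L : PeriodPair, L.g₂ = a' ∧ L.g₃ = b' := by
  obtain ⟨τ, hτ⟩ := Fermat.Agent.S24.G1.jInv_surjective (1728 * a' ^ 3 / (a' ^ 3 - 27 * b' ^ 2))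
  have hj0 := jInv_eq_latTau τ
  rw [hτ] at hj0
  have hd := disc_latTau_ne_zero τ
  have hj : (latTau τ).g₂ ^ 3 * (a' ^ 3 - 27 * b' ^ 2) =
      a' ^ 3 * ((latTau τ).g₂ ^ 3 - 27 * (latTau τ).g₃ ^ 2) := by
    have h1 : 1728 * a' ^ 3 * ((latTau τ).g₂ ^ 3 - 27 * (latTau τ).g₃ ^ 2) =
        1728 * (latTau τ).g₂ ^ 3 * (a' ^ 3 - 27 * b' ^ 2) := by
      rw [← hj0]
      field_simp
    linear_combination (-1 / 1728 : ℂ) * h1
  obtain ⟨u, hu0, hua, hub⟩ := exists_scaling hd hd' hj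
  obtain ⟨c, hc⟩ := IsAlgClosed.exists_pow_nat_eq (u⁻¹) (n := 2) (by norm_num)
  have hc0 : c ≠ 0 := by
    intro h0
    rw [h0] at hc
    have : u⁻¹ = 0 := by rw [← hc]; ring
    exact inv_ne_zero hu0 this
  refine ⟨scale c hc0 (latTau τ), ?_, ?_⟩
  · rw [g₂_scale, ← hua]
    have : (c ^ 4)⁻¹ = u ^ 2 := by
      have : c ^ 4 = (c ^ 2) ^ 2 := by ring
      rw [this, hc]
      simp
    rw [this]
  · rw [g₃_scale, ← hub]
    have : (c ^ 6)⁻¹ = u ^ 3 := by
      have : c ^ 6 = (c ^ 2) ^ 3 := by ring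
      rw [this, hc]
      simp
    rw [this]

/-- **T3.** Every short Weierstrass equation `y ^ 2 = x ^ 3 + A x + B` over `ℂ` with
`4 A ^ 3 + 27 B ^ 2 ≠ 0` comes from a lattice: `A = -g₂ / 4`, `B = -g₃ / 4`. -/
theorem exists_periodPair (A B : ℂ) (h : 4 * A ^ 3 + 27 * B ^ 2 ≠ 0) :
    ∃ L : PeriodPair, -L.g₂ / 4 = A ∧ -L.g₃ / 4 = B := by
  have hd' : (-4 * A) ^ 3 - 27 * (-4 * B) ^ 2 ≠ 0 := by
    intro h0
    apply h
    linear_combination (-1 / 16 : ℂ) * h0
  obtain ⟨L, h2, h3⟩ := exists_periodPair_g (-4 * A) (-4 * B) hd'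
  refine ⟨L, ?_, ?_⟩
  · rw [h2]; ring
  · rw [h3]; ring

end Fermat.Agent.S13.T
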